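import Fermat.Agent.RT.Lifting.Defs
import Fermat.Agent.Deform.Residual
import Fermat.Agent.RT.Assembly.RepLemmas
import Mathlib.Algebra.TrivSqZeroExt.Basic

/-!
# The condition over an algebra of lifts and the bound on its derivations
-/

set_option autoImplicit false
set_option linter.style.haveILetI false
set_option linter.unusedSectionVars false

noncomputable section

namespace Fermat.Agent.RT.Lifting.GalAlg

open IsLocalRing Module
open Fermat.Agent.Deform Fermat.Agent.Arith Fermat.Agent.RT.Assembly Fermat.Agent.CFT.Tangent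

variable {O : Type} [CommRing O] [IsDomain O] [IsDiscreteValuationRing O]
  [IsAdicComplete (maximalIdeal O) O] {ρbar : ResidualGaloisRep (ResidueField O)} {C : CondAt O}
  {W : Rigid O} {bb : Basis (Fin 2) (ResidueField O) ρbar.V}

/-- A condition read on the algebra a representation over `O` is defined on holds over `O`. -/
theorem cond_of_condOn (hC : IsPairCond ρbar C) {r : Gal →* M2 O} (hc : IsCont r)
    (h : CondOn C r) : C (toRep r hc) := by
  obtain ⟨B, _, _, _, _, φ, rB, hcB, -, hmap, hC'⟩ := h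
  have hs : Function.Surjective φ := fun o => ⟨algebraMap O B o, φ.commutes o⟩
  have hl : IsLocalHom (φ : B →+* O) := IsLocalHom.of_surjective _ hs
  exact hC.of_isEquiv (isEquiv_trans (isEquiv_baseChangeAlong_toRep _ hl rB hcB)
    (isEquiv_toRep_congr hmap _ hc)) (hC.baseChange φ hl _ hs hC')

section Points

variable {R : Type} [CommRing R] [IsLocalRing R] [Algebra O R] [Module.Finite O R]

theorem isLocalRing_quotient {J : Ideal R} (hJ : J ≠ ⊤) : IsLocalRing (R ⧸ J) :=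
  haveI := Ideal.Quotient.nontrivial_iff.2 hJ
  IsLocalRing.of_surjective' (Ideal.Quotient.mk J) Ideal.Quotient.mk_surjective

theorem isLocalHom_mk {J : Ideal R} [IsLocalRing (R ⧸ J)] :
    IsLocalHom (Ideal.Quotient.mkₐ O J : R →+* R ⧸ J) :=
  IsLocalHom.of_surjective _ Ideal.Quotient.mk_surjective

theorem isResAlg_quotient (hR : IsResAlg O R) {J : Ideal R} [IsLocalRing (R ⧸ J)] :
    IsResAlg O (R ⧸ J) := by
  haveI := hR.isLocalHom
  haveI := isLocalHom_mk (O := O) (J := J)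
  refine ⟨⟨fun o ho => ?_⟩, fun z => ?_⟩
  · rw [← (Ideal.Quotient.mkₐ O J).commutes o] at ho
    exact (isUnit_map_iff (algebraMap O R) o).1
      ((isUnit_map_iff (Ideal.Quotient.mkₐ O J : R →+* R ⧸ J) _).1 ho)
  · obtain ⟨y, rfl⟩ := residue_surjective z
    obtain ⟨x, rfl⟩ := Ideal.Quotient.mk_surjective y
    obtain ⟨o, ho⟩ := exists_sub_mem hR x
    refine ⟨o, (sub_eq_zero.1 ?_).symm⟩
    show residue (R ⧸ J) (Ideal.Quotient.mk J x) - residue (R ⧸ J) (algebraMap O _ o) = 0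
    rw [← map_sub, residue_eq_zero_iff,
      show algebraMap O (R ⧸ J) o = Ideal.Quotient.mk J (algebraMap O R o) from rfl, ← map_sub]
    exact map_nonunit (Ideal.Quotient.mkₐ O J : R →+* R ⧸ J) _ ho

variable (C) in
/-- The condition on the reduction modulo `J`. -/
def CondMod (ρ : Gal →* M2 R) (J : Ideal R) : Prop :=
  ∀ [IsLocalRing (R ⧸ J)] (hc : IsCont (mapM (Ideal.Quotient.mkₐ O J : R →+* R ⧸ J) ρ)),
    C (toRep (mapM (Ideal.Quotient.mkₐ O J : R →+* R ⧸ J) ρ) hc)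

variable (hW : W.rb = matRes ρbar bb) (hC : IsPairCond ρbar C) (hR : IsResAlg O R)
  {ρ : Gal →* M2 R} (hl : Lifts W hR ρ)
include hW hC hR hl

theorem residual_quotient {J : Ideal R} [IsLocalRing (R ⧸ J)]
    [IsLocalHom (algebraMap O (R ⧸ J))]
    (hc : IsCont (mapM (Ideal.Quotient.mkₐ O J : R →+* R ⧸ J) ρ)) :
    (toRep (mapM (Ideal.Quotient.mkₐ O J : R →+* R ⧸ J) ρ) hc).residual.IsEquiv
      (ρbar.baseChangeAlong (ResidueField.map (algebraMap O (R ⧸ J)))) :=
  residual_isEquiv_of_lifts hW (isResAlg_quotient hR) _ (Pi.basisFun _ (Fin 2))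
    ((matOf_toRep _ hc).symm ▸ hl.map (isResAlg_quotient hR) _ isLocalHom_mk)

theorem condMod_ker (hc : IsCont ρ) (x : R →ₐ[O] O) (hx : ∀ hc', C (toRep (mapM (x : R →+* O) ρ) hc')) :
    CondMod C ρ (RingHom.ker x) := by
  intro _ hcJ
  haveI := (isResAlg_quotient (J := RingHom.ker x) hR).isLocalHom
  let φ : R ⧸ RingHom.ker x →ₐ[O] O := Ideal.Quotient.liftₐ (RingHom.ker x) x fun _ h => h
  have hinj : Function.Injective φ := RingHom.kerLift_injective (x : R →+* O)
  have hφl : IsLocalHom (φ : R ⧸ RingHom.ker x →+* O) :=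
    IsLocalHom.of_surjective _ fun o => ⟨algebraMap O _ o, φ.commutes o⟩
  refine hC.descend φ hφl _ hinj (residual_quotient hW hC hR hl hcJ) ?_
  have hxl : IsLocalHom (x : R →+* O) :=
    IsLocalHom.of_surjective _ fun o => ⟨algebraMap O _ o, x.commutes o⟩
  refine hC.of_isEquiv (isEquiv_symm (isEquiv_trans (isEquiv_baseChangeAlong_toRep _ hφl _ hcJ)
    (isEquiv_toRep_congr ?_ _ (hc.map _ hxl)))) (hx _)
  rw [mapM_mapM]
  rfl

theorem condMod_inf (hc : IsCont ρ) {J₁ J₂ : Ideal R} (h₁ : J₁ ≠ ⊤) (h₂ : J₂ ≠ ⊤)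
    (c₁ : CondMod C ρ J₁) (c₂ : CondMod C ρ J₂) : CondMod C ρ (J₁ ⊓ J₂) := by
  intro _ hcJ
  haveI := (isResAlg_quotient (J := J₁ ⊓ J₂) hR).isLocalHom
  haveI := isLocalRing_quotient h₁
  haveI := isLocalRing_quotient h₂
  let φ₁ := Ideal.Quotient.factorₐ O (inf_le_left : J₁ ⊓ J₂ ≤ J₁)
  let φ₂ := Ideal.Quotient.factorₐ O (inf_le_right : J₁ ⊓ J₂ ≤ J₂)
  have l₁ : IsLocalHom (φ₁ : R ⧸ (J₁ ⊓ J₂) →+* R ⧸ J₁) :=
    IsLocalHom.of_surjective _ (Ideal.Quotient.factor_surjective inf_le_left)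
  have l₂ : IsLocalHom (φ₂ : R ⧸ (J₁ ⊓ J₂) →+* R ⧸ J₂) :=
    IsLocalHom.of_surjective _ (Ideal.Quotient.factor_surjective inf_le_right)
  refine hC.pair φ₁ φ₂ l₁ l₂ _ (fun a ha hb => ?_) (residual_quotient hW hC hR hl hcJ) ?_ ?_
  · obtain ⟨a, rfl⟩ := Ideal.Quotient.mk_surjective a
    rw [Ideal.Quotient.eq_zero_iff_mem]
    exact ⟨Ideal.Quotient.eq_zero_iff_mem.1 ha, Ideal.Quotient.eq_zero_iff_mem.1 hb⟩
  · refine hC.of_isEquiv (isEquiv_symm (isEquiv_trans (isEquiv_baseChangeAlong_toRep _ l₁ _ hcJ)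
      (isEquiv_toRep_congr ?_ _ (hc.map _ isLocalHom_mk)))) (c₁ (hc.map _ isLocalHom_mk))
    rw [mapM_mapM]; rfl
  · refine hC.of_isEquiv (isEquiv_symm (isEquiv_trans (isEquiv_baseChangeAlong_toRep _ l₂ _ hcJ)
      (isEquiv_toRep_congr ?_ _ (hc.map _ isLocalHom_mk)))) (c₂ (hc.map _ isLocalHom_mk))
    rw [mapM_mapM]; rfl

/-- A jointly injective family of points satisfying the condition gives the condition. -/
theorem cond_of_points (hc : IsCont ρ) {I : Type} [Finite I] [Nonempty I] (x : I → R →ₐ[O] O)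
    (hinj : ∀ a, (∀ i, x i a = 0) → a = 0)
    (hx : ∀ i hc', C (toRep (mapM (x i : R →+* O) ρ) hc')) : C (toRep ρ hc) := by
  classical
  haveI := Fintype.ofFinite I
  have hne : ∀ s : Finset I, s.Nonempty → s.inf (fun i => RingHom.ker (x i)) ≠ ⊤ := by
    rintro s ⟨i, hi⟩ htop
    exact RingHom.ker_ne_top (x i) (top_le_iff.1 (htop ▸ Finset.inf_le hi))
  have key : ∀ s : Finset I, s.Nonempty → CondMod C ρ (s.inf fun i => RingHom.ker (x i)) := by
    intro s hs
    induction hs using Finset.Nonempty.cons_induction with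
    | singleton i =>
      rw [Finset.inf_singleton]
      exact condMod_ker hW hC hR hl hc (x i) (hx i)
    | cons i s hi hs ih =>
      rw [Finset.inf_cons]
      exact condMod_inf hW hC hR hl hc (RingHom.ker_ne_top (x i)) (hne s hs)
        (condMod_ker hW hC hR hl hc (x i) (hx i)) ih
  set J := Finset.univ.inf fun i => RingHom.ker (x i) with hJdef
  haveI := isLocalRing_quotient (hne _ Finset.univ_nonempty)
  have hJ : Function.Injective (Ideal.Quotient.mkₐ O J) := by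
    refine (injective_iff_map_eq_zero _).2 fun a ha => hinj a fun i => ?_
    exact Finset.inf_le (f := fun i => RingHom.ker (x i)) (Finset.mem_univ i)
      (Ideal.Quotient.eq_zero_iff_mem.1 ha)
  haveI := hR.isLocalHom
  have hres := residual_isEquiv_of_lifts hW hR (toRep ρ hc) (Pi.basisFun R (Fin 2))
    ((matOf_toRep ρ hc).symm ▸ hl)
  exact hC.descend (Ideal.Quotient.mkₐ O J) isLocalHom_mk _ hJ hres
    (hC.of_isEquiv (isEquiv_symm (isEquiv_baseChangeAlong_toRep _ isLocalHom_mk ρ hc))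
      (key _ Finset.univ_nonempty (hc.map _ isLocalHom_mk)))

end Points

section Ext

variable (J : Type) [AddCommGroup J] [Module O J] [Module Oᵐᵒᵖ J] [IsCentralScalar O J]

theorem isLocalRing_trivSqZeroExt : IsLocalRing (TrivSqZeroExt O J) := by
  refine IsLocalRing.of_nonunits_add fun x y hx hy => ?_
  simp only [mem_nonunits_iff, TrivSqZeroExt.isUnit_iff_isUnit_fst, TrivSqZeroExt.fst_add] at hx hy ⊢
  exact (mem_maximalIdeal _).1 (add_mem ((mem_maximalIdeal _).2 hx) ((mem_maximalIdeal _).2 hy))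

theorem isResAlg_trivSqZeroExt [IsLocalRing (TrivSqZeroExt O J)] :
    IsResAlg O (TrivSqZeroExt O J) := by
  refine ⟨⟨fun o ho => ?_⟩, fun z => ?_⟩
  · simpa [TrivSqZeroExt.isUnit_iff_isUnit_fst, TrivSqZeroExt.algebraMap_eq_inl] using ho
  · obtain ⟨a, rfl⟩ := residue_surjective z
    refine ⟨a.fst, (sub_eq_zero.1 ?_).symm⟩
    show residue _ a - residue _ (algebraMap O (TrivSqZeroExt O J) a.fst) = 0
    rw [← map_sub, residue_eq_zero_iff, IsLocalRing.mem_maximalIdeal, mem_nonunits_iff,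
      TrivSqZeroExt.isUnit_iff_isUnit_fst]
    simp [TrivSqZeroExt.algebraMap_eq_inl]

end Ext

section Der

variable {R : Type} [CommRing R] [Algebra O R]

/-- The point over `O ⊕ O / 𝔪 ^ m` of a derivation. -/
def derHom {x : R →ₐ[O] O} {m : ℕ} {δ : R →ₗ[O] O ⧸ maximalIdeal O ^ m} (hδ : IsDerAt x δ) :
    R →ₐ[O] TrivSqZeroExt O (O ⧸ maximalIdeal O ^ m) :=
  AlgHom.ofLinearMap
    { toFun := fun a => TrivSqZeroExt.inl (x a) + TrivSqZeroExt.inr (δ a)
      map_add' := fun a b => TrivSqZeroExt.ext (by simp) (by simp)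
      map_smul' := fun c a => TrivSqZeroExt.ext (by simp) (by simp) }
    (TrivSqZeroExt.ext (by simp) (by
      have h := hδ 1 1
      simp only [mul_one, map_one, one_smul, left_eq_add] at h
      simp [h]))
    fun a b => TrivSqZeroExt.ext (by simp) (by simp [hδ a b, op_smul_eq_smul])

theorem fst_derHom {x : R →ₐ[O] O} {m : ℕ} {δ : R →ₗ[O] O ⧸ maximalIdeal O ^ m}
    (hδ : IsDerAt x δ) (a : R) : (derHom hδ a).fst = x a := by simp [derHom]

theorem snd_derHom {x : R →ₐ[O] O} {m : ℕ} {δ : R →ₗ[O] O ⧸ maximalIdeal O ^ m}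
    (hδ : IsDerAt x δ) (a : R) : (derHom hδ a).snd = δ a := by simp [derHom]

variable [IsLocalRing R] [Module.Finite O R]

/-- The condition on the algebra gives it on every image. -/
theorem condOn_map {A : Type} [CommRing A] [IsLocalRing A] [Algebra O A] [Module.Finite O A]
    (hC : IsPairCond ρbar C) {ρ : Gal →* M2 R} (hc : IsCont ρ) (hcond : C (toRep ρ hc))
    (φ : R →ₐ[O] A) (hφ : IsLocalHom (φ : R →+* A)) : CondOn C (mapM (φ : R →+* A) ρ) := by
  haveI := finite_subalgebra φ.range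
  haveI : Nontrivial φ.range := φ.range.toSubring.instNontrivialSubtypeMem
  haveI : IsLocalRing φ.range :=
    IsLocalRing.of_surjective' (R := R) (S := φ.range) (φ.rangeRestrict : R →+* φ.range)
      φ.rangeRestrict_surjective
  have hrl : IsLocalHom (φ.rangeRestrict : R →+* φ.range) :=
    ⟨fun a ha => (isUnit_map_iff (φ : R →+* A) a).1 (ha.map φ.range.val)⟩
  exact ⟨φ.range, inferInstance, inferInstance, inferInstance, inferInstance, φ.range.val,
    mapM (φ.rangeRestrict : R →+* φ.range) ρ, hc.map _ hrl, Subtype.val_injective,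
    by rw [mapM_mapM]; rfl,
    hC.of_isEquiv (isEquiv_baseChangeAlong_toRep _ hrl ρ hc)
      (hC.baseChange φ.rangeRestrict hrl _ φ.rangeRestrict_surjective hcond)⟩

/-- **The bound on derivations from the bound on lifts.** -/
theorem derBound_of_liftBound [Finite (ResidueField O)] {p : ℕ} {T U : Finset ℕ}
    (hp : (p : O) ∈ maximalIdeal O) (hC : IsPairCond ρbar C) (hR : IsResAlg O R)
    (ρ : Gal →* M2 R) (hc : IsCont ρ) (hl : Lifts W hR ρ) (hn : IsNormal W ρ)
    (hgen : Algebra.adjoin O (entries ρ) = ⊤) (cyc : Gal → O)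
    (hcyc : ∀ (n : ℕ) (σ : Gal) (a : ℕ), (∀ μ : QBar, μ ^ p ^ n = 1 → σ μ = μ ^ a) →
      cyc σ - a ∈ Ideal.span {((p ^ n : ℕ) : O)})
    (hdet : ∀ σ, (ρ σ).det = algebraMap O R (cyc σ)) (hcond : C (toRep ρ hc))
    (hunr : ∀ ℓ : ℕ, ℓ.Prime → ℓ ≠ p → ℓ ∉ T → ∀ A' : ValuationSubring QBar,
      A'.LiesOverPrime ℓ → ∀ τ ∈ A'.inertiaSubgroupIn ℚ, ρ τ = 1)
    (huni : ∀ q ∈ U, q ≠ p → ∀ A' : ValuationSubring QBar, A'.LiesOverPrime q →
      ∀ τ ∈ A'.inertiaSubgroupIn ℚ, (ρ τ).trace = 2)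
    (x₀ : R →ₐ[O] O) {r₀ : Gal →* M2 O} (hr₀ : mapM (x₀ : R →+* O) ρ = r₀) {D : O}
    (hb : LiftBound p W C T U r₀ D) : DerBound x₀ D := by
  intro m s hs
  classical
  set J := O ⧸ maximalIdeal O ^ m
  haveI := isLocalRing_trivSqZeroExt (O := O) J
  have hA := isResAlg_trivSqZeroExt (O := O) J
  haveI : Module.Finite O (TrivSqZeroExt O J) := inferInstanceAs (Module.Finite O (O × J))
  have hloc : ∀ δ ∈ s, ∀ h : IsDerAt x₀ δ,
      IsLocalHom ((derHom h : R →ₐ[O] TrivSqZeroExt O J) : R →+* TrivSqZeroExt O J) := by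
    intro δ _ h
    refine ⟨fun a ha => ?_⟩
    rw [RingHom.coe_coe, TrivSqZeroExt.isUnit_iff_isUnit_fst, fst_derHom] at ha
    have : IsLocalHom (x₀ : R →+* O) :=
      IsLocalHom.of_surjective _ fun o => ⟨algebraMap O _ o, x₀.commutes o⟩
    exact (isUnit_map_iff (x₀ : R →+* O) a).1 ha
  let f : {δ // δ ∈ s} → (Gal →* M2 (TrivSqZeroExt O J)) := fun δ =>
    mapM (derHom (hs δ.1 δ.2) : R →+* TrivSqZeroExt O J) ρ
  have hf : Function.Injective f := fun δ δ' h => Subtype.ext <| LinearMap.ext fun a => by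
    have e := DFunLike.congr_fun (algHom_eq_of_entries hgen h) a
    rw [← snd_derHom (hs δ.1 δ.2) a, e, snd_derHom]
  rw [← Finset.card_attach, ← Finset.card_image_of_injective _ hf]
  refine hb m hA _ fun r hr => ?_
  obtain ⟨⟨δ, hδs⟩, -, rfl⟩ := Finset.mem_image.1 hr
  set φ := derHom (hs δ hδs) with hφ
  have hφl : IsLocalHom (φ : R →+* TrivSqZeroExt O J) := hloc δ hδs _
  refine ⟨⟨hc.map _ hφl, hl.map hA φ hφl, hn.map φ, ⟨?_, fun n σ a ha => ?_⟩, ?_,
    fun ℓ hℓ hℓp hℓT A' hA' τ hτ => ?_, fun q hq hqp A' hA' τ hτ => ?_⟩, ?_⟩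
  · haveI := hA.isLocalHom
    rw [← map_natCast (algebraMap O (TrivSqZeroExt O J))]
    exact map_nonunit (algebraMap O (TrivSqZeroExt O J)) _ hp
  · have h1 : (f ⟨δ, hδs⟩ σ).det = algebraMap O (TrivSqZeroExt O J) (cyc σ) := by
      show ((φ : R →+* TrivSqZeroExt O J).mapMatrix (ρ σ)).det = _
      rw [← RingHom.map_det, hdet, RingHom.coe_coe, AlgHom.commutes]
    rw [det_toRep, h1, ← map_natCast (algebraMap O (TrivSqZeroExt O J)) a, ← map_sub]
    exact map_mem_span_natCast _ (hcyc n σ a ha)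
  · exact condOn_map hC hc hcond φ hφl
  · show (φ : R →+* TrivSqZeroExt O J).mapMatrix (ρ τ) = 1
    rw [hunr ℓ hℓ hℓp hℓT A' hA' τ hτ, map_one]
  · show ((φ : R →+* TrivSqZeroExt O J).mapMatrix (ρ τ)).trace = 2
    rw [RingHom.mapMatrix_apply, ← AddMonoidHom.map_trace, huni q hq hqp A' hA' τ hτ, map_ofNat]
  · rw [← hr₀, mapM_mapM]
    congr 1
    ext a
    exact fst_derHom (hs δ hδs) a

end Der

end Fermat.Agent.RT.Lifting.GalAlg
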