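import Fermat.Agent.RT.Lifting.Defs
import Fermat.Agent.Arith.Chebotarev.Main

/-!
# The algebra of finitely many lifts

For normalised lifts `rᵢ` of one residual representation with traces of Frobenius `v ℓ i`, the
algebra generated by the vectors `v ℓ` in `Oᴵ` is local, closed, and contains the entries of the
product representation.
-/

set_option autoImplicit false
set_option linter.style.haveILetI false
set_option linter.unusedSectionVars false

noncomputable section

namespace Fermat.Agent.RT.Lifting.GalAlg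

open IsLocalRing Module
open Fermat.Agent.Deform Fermat.Agent.Arith Fermat.Agent.RT.Assembly

variable {O : Type} [CommRing O] [IsDomain O] [IsDiscreteValuationRing O]
  [IsAdicComplete (maximalIdeal O) O]

omit [IsAdicComplete (maximalIdeal O) O] in
theorem augment_self (hO : IsResAlg O O) (x : O) : augment hO x = residue O x :=
  (augment hO).commutes x

variable {I : Type} (r : I → Gal →* M2 O)

omit [IsDomain O] [IsDiscreteValuationRing O] [IsAdicComplete (maximalIdeal O) O] in
/-- The product representation. -/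
def prodRep : Gal →* M2 (I → O) where
  toFun σ := Matrix.of fun a b i => r i σ a b
  map_one' := by
    ext a b i
    show r i 1 a b = (1 : M2 (I → O)) a b i
    rw [map_one]
    rcases eq_or_ne a b with rfl | h
    · simp
    · simp [Matrix.one_apply_ne h]
  map_mul' σ τ := by
    ext a b i
    show r i (σ * τ) a b = _
    rw [map_mul, Matrix.mul_apply, Matrix.mul_apply, Finset.sum_apply]
    rfl

omit [IsDomain O] [IsDiscreteValuationRing O] [IsAdicComplete (maximalIdeal O) O] in
theorem prodRep_apply (σ : Gal) (a b : Fin 2) (i : I) : prodRep r σ a b i = r i σ a b := rfl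

omit [IsDomain O] [IsDiscreteValuationRing O] [IsAdicComplete (maximalIdeal O) O] in
theorem mapM_eval_prodRep (i : I) :
    mapM (Pi.evalAlgHom O (fun _ : I => O) i : (I → O) →+* O) (prodRep r) = r i := by
  ext σ a b; rfl

omit [IsDomain O] [IsDiscreteValuationRing O] [IsAdicComplete (maximalIdeal O) O] in
theorem trace_prodRep (σ : Gal) (i : I) : (prodRep r σ).trace i = (r i σ).trace := by
  simp [Matrix.trace, prodRep_apply]

variable {W : Rigid O} {hO : IsResAlg O O} {S : Finset ℕ} (v : {ℓ : ℕ // ℓ.Prime ∧ ℓ ∉ S} → I → O)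

/-- The algebra generated by the vectors of Frobenius traces. -/
abbrev sysAlg : Subalgebra O (I → O) := Algebra.adjoin O (Set.range v)

/-- Normalised continuous lifts with the traces `v`. -/
structure IsLiftFamily (W : Rigid O) (hO : IsResAlg O O) : Prop where
  cont : ∀ i, IsCont (r i)
  lifts : ∀ i, Lifts W hO (r i)
  normal : ∀ i, IsNormal W (r i)
  trace : ∀ (i : I) (ℓ : {ℓ : ℕ // ℓ.Prime ∧ ℓ ∉ S}), ∀ A : ValuationSubring QBar,
    A.LiesOverPrime ℓ.1 → ∀ σ : Gal, A.IsFrobeniusAt σ ℓ.1 → (r i σ).trace = v ℓ i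

variable {r v}

namespace IsLiftFamily

variable (h : IsLiftFamily r v W hO)
include h

omit [IsAdicComplete (maximalIdeal O) O] in
theorem residue_entry (i : I) (σ : Gal) (a b : Fin 2) : residue O (r i σ a b) = W.rb σ a b := by
  rw [← augment_self hO]; exact h.lifts i σ a b

omit [IsAdicComplete (maximalIdeal O) O] in
/-- The coordinates of an element of the algebra have one residue. -/
theorem residue_eq {x : I → O} (hx : x ∈ sysAlg v) (i j : I) :
    residue O (x i) = residue O (x j) := by
  induction hx using Algebra.adjoin_induction with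
  | mem y hy =>
    obtain ⟨ℓ, rfl⟩ := hy
    obtain ⟨A, hA⟩ := exists_liesOverPrime ℓ.2.1
    obtain ⟨σ, hσ⟩ := exists_isFrobeniusAt hA ℓ.2.1
    rw [← h.trace i ℓ A hA σ hσ, ← h.trace j ℓ A hA σ hσ, Matrix.trace_fin_two,
      Matrix.trace_fin_two, map_add, map_add, h.residue_entry, h.residue_entry, h.residue_entry,
      h.residue_entry]
  | algebraMap c => rfl
  | add y z _ _ hy hz => simp only [Pi.add_apply, map_add, hy, hz]
  | mul y z _ _ hy hz => simp only [Pi.mul_apply, map_mul, hy, hz]

variable [Finite I]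

omit [IsAdicComplete (maximalIdeal O) O] in
theorem isUnit_iff (i₀ : I) {x : sysAlg v} :
    IsUnit x ↔ residue O ((x : I → O) i₀) ≠ 0 := by
  refine ⟨fun hx => residue_ne_zero_iff_isUnit _ |>.2
    (hx.map ((Pi.evalAlgHom O (fun _ : I => O) i₀).comp (sysAlg v).val)), fun hx => ?_⟩
  have hu : IsUnit (x : I → O) := Pi.isUnit_iff.2 fun i =>
    (residue_ne_zero_iff_isUnit _).1 (by rwa [h.residue_eq x.2 i i₀])
  exact (isLocalHom_subalgebra_val (sysAlg v)).map_nonunit x hu

omit [IsAdicComplete (maximalIdeal O) O] in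
theorem isLocalRing [Nonempty I] : IsLocalRing (sysAlg v) := by
  have i₀ : I := Classical.arbitrary I
  have : Nontrivial (sysAlg v) := ⟨0, 1, fun e => zero_ne_one (congrFun (congrArg Subtype.val e) i₀)⟩
  refine IsLocalRing.of_nonunits_add fun x y hx hy => ?_
  simp only [mem_nonunits_iff, h.isUnit_iff i₀, not_not, Subalgebra.coe_add, Pi.add_apply,
    map_add] at hx hy ⊢
  rw [hx, hy, add_zero]

omit [IsAdicComplete (maximalIdeal O) O] in
theorem mem_maximalIdeal_iff [IsLocalRing (sysAlg v)] (i₀ : I) {x : sysAlg v} :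
    x ∈ maximalIdeal (sysAlg v) ↔ residue O ((x : I → O) i₀) = 0 := by
  rw [IsLocalRing.mem_maximalIdeal, mem_nonunits_iff, h.isUnit_iff i₀, not_not]

omit [IsAdicComplete (maximalIdeal O) O] in
theorem isResAlg [Nonempty I] [IsLocalRing (sysAlg v)] : IsResAlg O (sysAlg v) := by
  have i₀ : I := Classical.arbitrary I
  refine ⟨⟨fun o ho => ?_⟩, fun z => ?_⟩
  · have h1 := (h.isUnit_iff i₀).1 ho
    exact (residue_ne_zero_iff_isUnit _).1 h1
  · obtain ⟨x, rfl⟩ := residue_surjective z
    refine ⟨(x : I → O) i₀, (sub_eq_zero.1 ?_).symm⟩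
    show residue (sysAlg v) x - residue (sysAlg v) (algebraMap O _ ((x : I → O) i₀)) = 0
    rw [← map_sub, residue_eq_zero_iff, h.mem_maximalIdeal_iff i₀]
    simp

omit [IsAdicComplete (maximalIdeal O) O] h in
theorem exists_eq_smul {n : ℕ} {ϖ : O} (hϖ : Irreducible ϖ) {x : I → O}
    (hx : ∀ i, x i ∈ maximalIdeal O ^ n) : x ∈ maximalIdeal O ^ n • (⊤ : Submodule O (I → O)) := by
  simp only [hϖ.maximalIdeal_eq, Ideal.span_singleton_pow, Ideal.mem_span_singleton] at hx ⊢
  choose y hy using hx
  rw [show x = ϖ ^ n • y from funext fun i => hy i]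
  exact Submodule.smul_mem_smul (Ideal.mem_span_singleton_self _) Submodule.mem_top

omit [IsAdicComplete (maximalIdeal O) O] h in
/-- The algebra is closed. -/
theorem mem_of_approx {t : I → O}
    (ht : ∀ n : ℕ, ∃ y ∈ sysAlg v, ∀ i, t i - y i ∈ maximalIdeal O ^ n) : t ∈ sysAlg v := by
  obtain ⟨ϖ, hϖ⟩ := IsDiscreteValuationRing.exists_irreducible O
  set P := Subalgebra.toSubmodule (sysAlg v) with hP
  suffices hq : P.mkQ t = 0 by
    rwa [Submodule.mkQ_apply, Submodule.Quotient.mk_eq_zero] at hq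
  have hbot := Ideal.iInf_pow_smul_eq_bot_of_isLocalRing (R := O) (M := (I → O) ⧸ P)
    (maximalIdeal O) (Ideal.IsPrime.ne_top inferInstance)
  rw [← Submodule.mem_bot O, ← hbot, Submodule.mem_iInf]
  intro n
  obtain ⟨y, hy, hty⟩ := ht n
  have h1 : P.mkQ t = P.mkQ (t - y) := by
    rw [map_sub, show P.mkQ y = 0 from (Submodule.Quotient.mk_eq_zero P).2 hy, sub_zero]
  rw [h1]
  have h2 := Submodule.mem_map_of_mem (f := P.mkQ) (exists_eq_smul hϖ (x := t - y) hty)
  rw [Submodule.map_smul''] at h2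
  exact Submodule.smul_mono le_rfl le_top h2

/-- The traces lie in the algebra. -/
theorem trace_mem (σ : Gal) : (prodRep r σ).trace ∈ sysAlg v := by
  refine mem_of_approx fun n => ?_
  choose F hF hFr using fun i => h.cont i n
  haveI := hF
  let ρ : Gal →* (I → M2 (O ⧸ maximalIdeal O ^ n)) :=
    MonoidHom.pi fun i => mapM (Ideal.Quotient.mk (maximalIdeal O ^ n)) (r i)
  obtain ⟨ℓ, hℓ, hℓS, A, hA, g, hg, hρ⟩ :=
    Chebotarev.exists_frobenius_eq ρ (⨆ i, F i) (fun τ hτ => funext fun i => Matrix.ext fun a b => by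
      have h1 := hFr i τ (fun x hx => hτ x (le_iSup F i hx)) a b
      show Ideal.Quotient.mk _ (r i τ a b) = (1 : M2 (O ⧸ maximalIdeal O ^ n)) a b
      rw [← Ideal.Quotient.eq] at h1
      rw [h1, Matrix.one_apply, Matrix.one_apply]
      split_ifs <;> simp) σ S
  refine ⟨v ⟨ℓ, hℓ, hℓS⟩, Algebra.subset_adjoin ⟨_, rfl⟩, fun i => ?_⟩
  have h1 : ∀ a b, r i σ a b - r i g a b ∈ maximalIdeal O ^ n := fun a b => by
    rw [← Ideal.Quotient.eq]
    exact (congrFun (congrFun (congrFun hρ i) a) b).symm
  rw [trace_prodRep, ← h.trace i ⟨ℓ, hℓ, hℓS⟩ A hA g hg, Matrix.trace_fin_two,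
    Matrix.trace_fin_two, add_sub_add_comm]
  exact add_mem (h1 0 0) (h1 1 1)

omit [IsAdicComplete (maximalIdeal O) O] [Finite I] in
theorem isNormal_prodRep : IsNormal W (prodRep r) := by
  have key : ∀ (c : Gal →₀ O) (a b : Fin 2) (i : I),
      evalC c (prodRep r) a b i = evalC c (r i) a b := fun c a b i => by
    rw [← mapM_eval_prodRep r i, evalC_map]
    rfl
  exact ⟨funext fun i => by rw [key]; exact (h.normal i).1,
    funext fun i => by rw [key]; exact (h.normal i).2.1,
    funext fun i => by rw [key]; exact (h.normal i).2.2⟩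

/-- **The entries lie in the algebra.** -/
theorem entry_mem [Nonempty I] (h2 : IsUnit (2 : O)) (hW : ∃ σ, W.rb σ 0 1 ≠ 0) (σ : Gal)
    (a b : Fin 2) : prodRep r σ a b ∈ sysAlg v := by
  have i₀ : I := Classical.arbitrary I
  haveI := h.isLocalRing
  haveI := finite_subalgebra (sysAlg v)
  haveI := h.isResAlg.isLocalHom
  haveI := isAdicComplete_subalgebra (sysAlg v) h.isResAlg.isLocalHom
  haveI : HenselianRing (sysAlg v) (maximalIdeal (sysAlg v)) := IsAdicComplete.henselianRing _ _
  set 𝔅 : Submodule (sysAlg v) (M2 (I → O)) := Submodule.span (sysAlg v) (Set.range (prodRep r))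
  have hr : ∀ τ, prodRep r τ ∈ 𝔅 := fun τ => Submodule.subset_span ⟨τ, rfl⟩
  have h1B : (1 : M2 (I → O)) ∈ 𝔅 := map_one (prodRep r) ▸ hr 1
  have hmul : ∀ {P Q : M2 (I → O)}, P ∈ 𝔅 → Q ∈ 𝔅 → P * Q ∈ 𝔅 := by
    intro P Q hP hQ
    induction hP using Submodule.span_induction with
    | mem P hP =>
      obtain ⟨τ, rfl⟩ := hP
      induction hQ using Submodule.span_induction with
      | mem Q hQ =>
        obtain ⟨τ', rfl⟩ := hQ
        rw [← map_mul]; exact hr _
      | zero => rw [mul_zero]; exact zero_mem _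
      | add y z _ _ hy hz => rw [mul_add]; exact add_mem hy hz
      | smul c y _ hy => rw [mul_smul_comm]; exact Submodule.smul_mem _ c hy
    | zero => rw [zero_mul]; exact zero_mem _
    | add y z _ _ hy hz => rw [add_mul]; exact add_mem hy hz
    | smul c y _ hy => rw [smul_mul_assoc]; exact Submodule.smul_mem _ c hy
  have htr : ∀ {P : M2 (I → O)}, P ∈ 𝔅 → P.trace ∈ sysAlg v := by
    intro P hP
    induction hP using Submodule.span_induction with
    | mem P hP => obtain ⟨τ, rfl⟩ := hP; exact h.trace_mem τ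
    | zero => rw [Matrix.trace_zero]; exact zero_mem _
    | add y z _ _ hy hz => rw [Matrix.trace_add]; exact add_mem hy hz
    | smul c y _ hy => rw [Matrix.trace_smul]; exact mul_mem c.2 hy
  have heval : ∀ c : Gal →₀ O, evalC c (prodRep r) ∈ 𝔅 := fun c => Submodule.sum_mem _ fun τ _ => by
    show c τ • prodRep r τ ∈ 𝔅
    rw [← algebraMap_smul (sysAlg v) (c τ)]
    exact Submodule.smul_mem _ _ (hr τ)
  obtain ⟨hX01, hX10, hY10⟩ := h.isNormal_prodRep
  set X := evalC W.cX (prodRep r)
  set Y := evalC W.cY (prodRep r)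
  have hres : ∀ (c : Gal →₀ O) i j (k : I), residue O (evalC c (prodRep r) i j k) = evalC c W.rb i j := by
    intro c i j k
    have e1 : evalC c (prodRep r) i j k = evalC c (r k) i j := by
      rw [← mapM_eval_prodRep r k, evalC_map]; rfl
    rw [e1, ← augment_self hO, augment_evalC (h.lifts k)]
  have hX00 : ∀ k, residue O (X 0 0 k) = 1 := fun k => by
    rw [hres, show evalC W.cX W.rb = _ from W.hX]; simp
  have hX11 : ∀ k, residue O (X 1 1 k) = 0 := fun k => by
    rw [hres, show evalC W.cX W.rb = _ from W.hX]; simp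
  have hs : X 0 0 + X 1 1 ∈ sysAlg v := by
    simpa [Matrix.trace_fin_two] using htr (heval W.cX)
  have hq : X 0 0 * X 1 1 ∈ sysAlg v := by
    obtain ⟨u, hu⟩ := h2.exists_right_inv
    have h3 := htr (hmul (heval W.cX) (heval W.cX))
    have e : X 0 0 * X 1 1 = algebraMap O (I → O) u *
        ((X 0 0 + X 1 1) ^ 2 - (X * X).trace) := by
      have hu' : algebraMap O (I → O) u * 2 = 1 := by
        rw [← map_ofNat (algebraMap O (I → O)) 2, ← map_mul, mul_comm, hu, map_one]
      simp only [Matrix.trace_fin_two, Matrix.mul_apply, Fin.sum_univ_two, hX01, hX10]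
      linear_combination (-(X 0 0 * X 1 1)) * hu'
    rw [e]
    exact mul_mem (Subalgebra.algebraMap_mem _ u) (sub_mem (pow_mem hs 2) h3)
  obtain ⟨l, hl, hl1⟩ := HenselianRing.is_henselian (I := maximalIdeal (sysAlg v))
    (Polynomial.X ^ 2 - Polynomial.C (⟨_, hs⟩ : sysAlg v) * Polynomial.X +
      Polynomial.C (⟨_, hq⟩ : sysAlg v))
    (by monicity!) 1
    (by
      rw [h.mem_maximalIdeal_iff i₀]
      simp [Polynomial.eval_add, Polynomial.eval_sub, hX00, hX11])
    (IsUnit.map _ ((h.isUnit_iff i₀).2 (by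
      simp [Polynomial.derivative_pow, hX00, hX11, ← one_add_one_eq_two])))
  simp only [Polynomial.IsRoot, Polynomial.eval_add, Polynomial.eval_sub, Polynomial.eval_pow,
    Polynomial.eval_X, Polynomial.eval_C, Polynomial.eval_mul] at hl
  have hla : (l : I → O) = X 0 0 := funext fun k => by
    have h1 : residue O ((l : I → O) k) = 1 := by
      rw [h.mem_maximalIdeal_iff k] at hl1
      simpa [sub_eq_zero] using hl1
    have e := congrFun (congrArg Subtype.val hl) k
    simp at e
    have e' : ((l : I → O) k - X 0 0 k) * ((l : I → O) k - X 1 1 k) = 0 := by linear_combination e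
    exact sub_eq_zero.1 ((mul_eq_zero.1 e').resolve_right fun h0 => by
      have := congrArg (residue O) h0
      rw [map_sub, h1, hX11, sub_zero, map_zero] at this
      exact one_ne_zero this)
  have ha : X 0 0 ∈ sysAlg v := hla ▸ l.2
  have hd : X 1 1 ∈ sysAlg v := by simpa using sub_mem hs ha
  obtain ⟨u, hu⟩ := IsUnit.exists_left_inv ((h.isUnit_iff i₀ (x := ⟨_, sub_mem ha hd⟩)).2 (by
    simp [hX00, hX11]))
  have hu' : (u : I → O) * (X 0 0 - X 1 1) = 1 := congrArg Subtype.val hu
  set E₀ : M2 (I → O) := Matrix.single 0 0 1 with hE₀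
  have hE : E₀ ∈ 𝔅 := by
    have e : E₀ = u • (X - (⟨_, hd⟩ : sysAlg v) • 1) := by
      refine Matrix.ext fun i j => funext fun k => ?_
      have hk := congrFun hu' k
      simp only [Pi.mul_apply, Pi.sub_apply, Pi.one_apply] at hk
      fin_cases i <;> fin_cases j <;>
        simp [hE₀, hX01, hX10, Subalgebra.smul_def, Matrix.smul_apply, hk]
    rw [e]
    exact Submodule.smul_mem _ _ (sub_mem (heval W.cX) (Submodule.smul_mem _ _ h1B))
  have hF : 1 - E₀ ∈ 𝔅 := sub_mem h1B hE
  have h01 : ∀ τ, prodRep r τ 0 1 ∈ sysAlg v := fun τ => by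
    have := htr (hmul (hmul (hmul hE (hr τ)) hF) (show Y ∈ 𝔅 from heval W.cY))
    simpa [hE₀, Matrix.trace_fin_two, Matrix.mul_apply, Fin.sum_univ_two, hY10,
      Matrix.one_apply] using this
  fin_cases a <;> fin_cases b
  · simpa [hE₀, Matrix.trace_fin_two, Matrix.mul_apply, Fin.sum_univ_two] using
      htr (hmul hE (hr σ))
  · exact h01 σ
  · obtain ⟨τ, hτ⟩ := hW
    have h10 : prodRep r σ 1 0 * prodRep r τ 0 1 ∈ sysAlg v := by
      have := htr (hmul (hmul (hmul hF (hr σ)) hE) (hr τ))
      simpa [hE₀, Matrix.trace_fin_two, Matrix.mul_apply, Fin.sum_univ_two,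
        Matrix.one_apply] using this
    obtain ⟨z, hz⟩ := IsUnit.exists_left_inv ((h.isUnit_iff i₀ (x := ⟨_, h01 τ⟩)).2 (by
      show residue O (r i₀ τ 0 1) ≠ 0
      rwa [h.residue_entry]))
    have hz' : (z : I → O) * prodRep r τ 0 1 = 1 := congrArg Subtype.val hz
    show prodRep r σ 1 0 ∈ sysAlg v
    have e : prodRep r σ 1 0 = (z : I → O) * (prodRep r σ 1 0 * prodRep r τ 0 1) := by
      linear_combination -(prodRep r σ 1 0) * hz'
    rw [e]
    exact mul_mem z.2 h10
  · simpa [hE₀, Matrix.trace_fin_two, Matrix.mul_apply, Fin.sum_univ_two, Matrix.one_apply] using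
      htr (hmul hF (hr σ))

omit [IsAdicComplete (maximalIdeal O) O] in
/-- Continuity of the representation over the algebra. -/
theorem isCont_corestrict [Nonempty I] [IsLocalRing (sysAlg v)]
    (hS : ∀ σ a b, prodRep r σ a b ∈ sysAlg v) : IsCont (corestrict (sysAlg v) (prodRep r) hS) := by
  intro n
  haveI := h.isResAlg.isLocalHom
  obtain ⟨ϖ, hϖ⟩ := IsDiscreteValuationRing.exists_irreducible O
  obtain ⟨k, hk⟩ := (maximalIdeal O).exists_pow_inf_eq_pow_smul (Subalgebra.toSubmodule (sysAlg v))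
  choose F hF hFr using fun i => h.cont i (n + k)
  haveI := hF
  refine ⟨⨆ i, F i, inferInstance, fun σ hσ a b => ?_⟩
  set x : sysAlg v :=
    corestrict (sysAlg v) (prodRep r) hS σ a b - (1 : M2 (sysAlg v)) a b with hx
  have hxA : ∀ i, (x : I → O) i ∈ maximalIdeal O ^ (n + k) := fun i => by
    have h1 := hFr i σ (fun y hy => hσ y (le_iSup F i hy)) a b
    have e : (x : I → O) i = r i σ a b - (1 : M2 O) a b := by
      rw [hx, AddSubgroupClass.coe_sub, Pi.sub_apply]
      rcases eq_or_ne a b with rfl | hab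
      · simp [corestrict, prodRep_apply]
      · simp [corestrict, prodRep_apply, Matrix.one_apply_ne hab]
    rwa [e]
  have hmem : (x : I → O) ∈ maximalIdeal O ^ (n + k) • (⊤ : Submodule O (I → O)) ⊓
      Subalgebra.toSubmodule (sysAlg v) := ⟨exists_eq_smul hϖ hxA, x.2⟩
  rw [hk (n + k) (Nat.le_add_left _ _), Nat.add_sub_cancel] at hmem
  have hmem' : (x : I → O) ∈ maximalIdeal O ^ n • Subalgebra.toSubmodule (sysAlg v) :=
    Submodule.smul_mono le_rfl inf_le_right hmem
  have hmap : maximalIdeal O ^ n • Subalgebra.toSubmodule (sysAlg v) =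
      (maximalIdeal O ^ n • (⊤ : Submodule O (sysAlg v))).map (sysAlg v).val.toLinearMap := by
    rw [Submodule.map_smul'', Submodule.map_top]
    congr 1
    ext y
    simp
  rw [hmap] at hmem'
  obtain ⟨y, hy, hyx⟩ := hmem'
  obtain rfl : y = x := Subtype.ext hyx
  rw [Ideal.smul_top_eq_map, SetLike.mem_coe, Submodule.restrictScalars_mem, Ideal.map_pow] at hy
  have hle : (maximalIdeal O).map (algebraMap O (sysAlg v)) ≤ maximalIdeal (sysAlg v) :=
    Ideal.map_le_iff_le_comap.mpr fun o ho => map_nonunit (algebraMap O (sysAlg v)) o ho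
  exact Ideal.pow_right_mono hle n hy

end IsLiftFamily

end Fermat.Agent.RT.Lifting.GalAlg
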