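import Fermat.Agent.RT.GammaH.EigenVector
import Fermat.Agent.RT.Lift.Ihara
import Fermat.Agent.LevelRaising.Main
import Fermat.Agent.Newforms.Semisimple

/-!
# The operators on `Hom(Γ₀(L), ·)` for an arbitrary level `L`

An operator with parabolic values, semisimplicity on parabolic homomorphisms and the newform of an
eigen homomorphism, all at `K = ⊤`.
-/

set_option autoImplicit false
set_option linter.style.haveILetI false

noncomputable section

namespace Fermat.Agent.RT.Lifting.GalAlg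

open CongruenceSubgroup MvPolynomial IsLocalRing ModularFormClass ModularCurve.Period
open Fermat.Agent.RT.GammaH Fermat.Agent.Periods
open scoped MatrixGroups

variable {L : ℕ} [NeZero L]

omit [NeZero L] in
theorem toTop_symm_mem_parabolicHoms {φ : HomC (⊤ : Subgroup (ZMod L)ˣ)}
    (hφ : φ ∈ parabolicHoms ℂ (gammaH L (⊤ : Subgroup (ZMod L)ˣ)) ℂ) :
    (Lift.toTop ℂ L).symm φ ∈ parabolicHoms ℂ (Gamma0 L) ℂ :=
  fun γ hγ => hφ ⟨γ, gammaH_top.ge γ.2⟩ hγ

/-- `T_ℓ` is semisimple on parabolic homomorphisms of `Γ₀(L)`. -/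
theorem hecke_semisimple_top {ℓ : ℕ} [hp : Fact ℓ.Prime] (hℓ : ¬ ℓ ∣ L) (c : ℂ)
    {φ : HomC (⊤ : Subgroup (ZMod L)ˣ)}
    (hφ : φ ∈ parabolicHoms ℂ (gammaH L (⊤ : Subgroup (ZMod L)ˣ)) ℂ)
    (h : hecke L ⊤ ℓ ℂ (hecke L ⊤ ℓ ℂ φ) - (2 * c) • hecke L ⊤ ℓ ℂ φ + c ^ 2 • φ = 0) :
    hecke L ⊤ ℓ ℂ φ = c • φ := by
  obtain ⟨v, rfl⟩ := (Lift.toTop ℂ L).surjective φ
  have hv : v ∈ parabolicHoms ℂ (Gamma0 L) ℂ := by
    simpa using toTop_symm_mem_parabolicHoms hφ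
  obtain ⟨g, g', rfl⟩ := LevelRaising.exists_periodHomPair hv
  rw [Lift.hecke_toTop ℂ hp.out hℓ, Lift.hecke_toTop ℂ hp.out hℓ, ← map_smul (Lift.toTop ℂ L),
    ← map_smul (Lift.toTop ℂ L), ← map_sub, ← map_add, LinearEquiv.map_eq_zero_iff,
    LevelRaising.homT_periodHomPair, LevelRaising.homT_periodHomPair,
    ← map_smul (ModularCurve.periodHomPair L), ← map_smul (ModularCurve.periodHomPair L),
    ← map_sub, ← map_add,
    map_eq_zero_iff _ (periodHomPair_injective L)] at h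
  simp only [Prod.smul_mk, Prod.mk_sub_mk, Prod.mk_add_mk, Prod.mk_eq_zero] at h
  have key : ∀ G : CuspForm (Gamma0 L) 2,
      CuspForm.heckeTLin 2 hp.out hℓ (CuspForm.heckeTLin 2 hp.out hℓ G) -
          (2 * c) • CuspForm.heckeTLin 2 hp.out hℓ G + c ^ 2 • G = 0 →
        CuspForm.heckeTLin 2 hp.out hℓ G = c • G := by
    intro G hG
    rw [← Newforms.hOp_eq_heckeTLin hp.out hℓ] at hG ⊢
    refine (Newforms.isPetersson_hOp hp.out hℓ).eigen_of_genEigen (n := 2) ?_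
    rw [← hG]
    simp [pow_two, Module.End.mul_apply, map_sub, map_smul, smul_sub, smul_smul]
    module
  rw [Lift.hecke_toTop ℂ hp.out hℓ, LevelRaising.homT_periodHomPair, key g h.1, key g' h.2,
    ← Prod.smul_mk, map_smul, map_smul]

section Operators

variable {O : Type} [CommRing O] [Algebra O ℂ] {S : Finset ℕ}

/-- The operators are semisimple on parabolic homomorphisms of `Γ₀(L)`. -/
theorem opPar_isSemisimple_top (hS : ∀ v : ℕ, v.Prime → v ∣ L → v ∈ S) (a : OpRing O L S) :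
    (opPar (K := (⊤ : Subgroup (ZMod L)ˣ)) (Subgroup.mem_top _) a).IsSemisimple := by
  have hneg : -1 ∈ (⊤ : Subgroup (ZMod L)ˣ) := Subgroup.mem_top _
  have := finiteDimensional_parabolicHoms (M := L) hneg
  have hmul : ∀ a b : OpRing O L S, opPar hneg (a * b) = opPar hneg a * opPar hneg b := fun a b =>
    LinearMap.ext fun φ => Subtype.ext (by rw [coe_opPar, map_mul]; rfl)
  have hgen : ∀ i : OpIdx L S, (opPar (O := O) hneg (X i)).IsSemisimple := by
    rintro (u | ℓ)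
    · refine Module.End.isSemisimple_of_squarefree_aeval_eq_zero
        (p := Polynomial.X - Polynomial.C (1 : ℂ)) (Polynomial.irreducible_X_sub_C _).squarefree ?_
      refine LinearMap.ext fun φ => Subtype.ext ?_
      rw [map_sub, Polynomial.aeval_X, Polynomial.aeval_C, map_one, LinearMap.sub_apply,
        Submodule.coe_sub, coe_opPar, opC_inl]
      exact sub_eq_zero.2 (diamond_top ℂ u φ.1)
    · have : Fact ℓ.1.Prime := ⟨ℓ.2.1⟩
      refine isSemisimple_of_sq _ fun c φ h => Subtype.ext ?_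
      rw [coe_opPar, opC_inr]
      have hℓL : ¬ ℓ.1 ∣ L := fun hd => ℓ.2.2 (hS _ ℓ.2.1 hd)
      refine hecke_semisimple_top hℓL c φ.2 ?_
      have h' := congrArg (Subtype.val
        (p := fun x => x ∈ parabolicHoms ℂ (gammaH L (⊤ : Subgroup (ZMod L)ˣ)) ℂ)) h
      simp only [Submodule.coe_add, Submodule.coe_sub, Submodule.coe_smul, coe_opPar, opC_inr] at h'
      exact h'
  induction a using MvPolynomial.induction_on with
  | C c =>
    refine Module.End.isSemisimple_of_squarefree_aeval_eq_zero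
      (p := Polynomial.X - Polynomial.C (algebraMap O ℂ c))
      (Polynomial.irreducible_X_sub_C _).squarefree ?_
    refine LinearMap.ext fun φ => Subtype.ext ?_
    rw [map_sub, Polynomial.aeval_X, Polynomial.aeval_C, LinearMap.sub_apply, Submodule.coe_sub,
      coe_opPar, opC_C]
    exact sub_self _
  | add a b ha hb =>
    have hadd : opPar hneg (a + b) = opPar hneg a + opPar hneg b :=
      LinearMap.ext fun φ => Subtype.ext (by rw [coe_opPar, map_add]; rfl)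
    rw [hadd]
    exact ha.add_of_commute
      ((hmul a b).symm.trans ((congrArg _ (mul_comm a b)).trans (hmul b a))) hb
  | mul_X a i ha =>
    rw [hmul]
    exact ha.mul_of_commute ((hmul a (X i)).symm.trans
      ((congrArg _ (mul_comm a (X i))).trans (hmul (X i) a))) (hgen i)

/-- Semisimplicity on the localised classes of `Γ₀(L)`. -/
theorem smul_eq_zero_of_pow_smul_top [IsLocalRing O] (hS : ∀ v : ℕ, v.Prime → v ∣ L → v ∈ S)
    (hinj : Function.Injective (algebraMap O ℂ))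
    {m : Ideal (OpRing O L S)} {e P : OpRing O L S}
    (he : IsLocalizer m (HomMod O S (⊤ : Subgroup (ZMod L)ˣ) O) e) (hP : P ∉ m)
    (hpar : ∀ φ : HomMod O S (⊤ : Subgroup (ZMod L)ˣ) ℂ,
      IsParabolicHom (gammaH L ⊤) (toHomMod.symm (P • φ)))
    {a : OpRing O L S} {x : HomMod O S (⊤ : Subgroup (ZMod L)ˣ) O}
    (hx : x ∈ localPart O e (HomMod O S (⊤ : Subgroup (ZMod L)ˣ) O)) {n : ℕ}
    (h : a ^ n • x = 0) : a • x = 0 := by
  have hneg : -1 ∈ (⊤ : Subgroup (ZMod L)ˣ) := Subgroup.mem_top _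
  have := finiteDimensional_parabolicHoms (M := L) hneg
  have hw : opC O S ⊤ P (toHomC x) ∈ parabolicHoms ℂ (gammaH L (⊤ : Subgroup (ZMod L)ˣ)) ℂ :=
    hpar (toHomMod (toHomC x))
  have hn : (opPar hneg a ^ n) ⟨_, hw⟩ = 0 := by
    refine Subtype.ext ?_
    rw [← opPar_pow, coe_opPar]
    show opC O S ⊤ (a ^ n) (opC O S ⊤ P (toHomC x)) = 0
    rw [← toHomC_smul, ← toHomC_smul, smul_comm, h, smul_zero, map_zero]
  have h0 := congrArg (Subtype.val
    (p := fun z => z ∈ parabolicHoms ℂ (gammaH L (⊤ : Subgroup (ZMod L)ˣ)) ℂ))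
    (eq_zero_of_pow_apply (opPar_isSemisimple_top hS a) hn)
  rw [coe_opPar] at h0
  replace h0 : opC O S ⊤ a (opC O S ⊤ P (toHomC x)) = 0 := h0
  rw [← toHomC_smul, ← toHomC_smul, smul_comm] at h0
  exact he.eq_zero_of_smul_eq_zero hP (smul_mem_localPart a hx)
    (toHomC_injective hinj (h0.trans (map_zero toHomC).symm))

/-- An operator outside the residual ideal with parabolic values. -/
theorem exists_parabolicOp_top [IsLocalRing O] (abar : ℕ → ResidueField O) {ℓ : ℕ} (hℓ : ℓ.Prime)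
    (hℓS : ℓ ∉ S) (hL1 : L ∣ ℓ - 1) (h2 : abar ℓ ≠ 1 + (ℓ : ResidueField O)) :
    ∃ P : OpRing O L S, P ∉ resIdeal S abar L ∧
      ∀ φ : HomMod O S (⊤ : Subgroup (ZMod L)ˣ) ℂ,
        IsParabolicHom (gammaH L ⊤) (toHomMod.symm (P • φ)) := by
  have : Fact ℓ.Prime := ⟨hℓ⟩
  have : NeZero ℓ := ⟨hℓ.ne_zero⟩
  have hℓL : ¬ ℓ ∣ L := fun hd => by
    have := Nat.le_of_dvd (by have := hℓ.two_le; omega) (hd.trans hL1)
    have := hℓ.two_le
    omega
  have hL1' : (L : ℤ) ∣ (ℓ : ℤ) - 1 := by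
    have h : (L : ℤ) ∣ ((ℓ - 1 : ℕ) : ℤ) := Int.natCast_dvd_natCast.2 hL1
    rwa [Nat.cast_sub hℓ.one_le, Nat.cast_one] at h
  refine ⟨X (Sum.inr ⟨ℓ, hℓ, hℓS⟩) - ((1 + ℓ : ℕ) : OpRing O L S), ?_, fun φ γ hγ => ?_⟩
  · rw [mem_resIdeal, map_sub, map_natCast, opRes_inr, Nat.cast_add, Nat.cast_one, sub_eq_zero]
    exact h2
  · obtain ⟨v, hv⟩ := (Lift.toTop ℂ L).surjective (toHomMod.symm φ)
    show ((X (Sum.inr ⟨ℓ, hℓ, hℓS⟩) - ((1 + ℓ : ℕ) : OpRing O L S)) • φ) (Additive.ofMul γ) = 0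
    rw [sub_smul, X_inr_smul, Nat.cast_smul_eq_nsmul]
    show hecke L ⊤ ℓ O (toHomMod.symm φ) (Additive.ofMul γ) -
      (1 + ℓ) • (toHomMod.symm φ) (Additive.ofMul γ) = 0
    have e : hecke L ⊤ ℓ O (toHomMod.symm φ) = hecke L ⊤ ℓ ℂ (toHomMod.symm φ) := rfl
    rw [e, ← hv, Lift.hecke_toTop ℂ hℓ hℓL]
    show homT hℓ hℓL ℂ v (Additive.ofMul ⟨γ.1, _⟩) - (1 + ℓ) • v (Additive.ofMul ⟨γ.1, _⟩) = 0
    rw [show homT hℓ hℓL ℂ v = homT hℓ hℓL ℤ v from rfl,
      LevelRaising.homT_apply_parabolic hℓ hℓL hL1' (fun n a hn ha => by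
        rw [nsmul_eq_mul] at ha
        exact (mul_eq_zero.1 ha).resolve_left (Nat.cast_ne_zero.2 hn)) v _ hγ, sub_self]

end Operators

/-- The newform of an eigen homomorphism on `Γ₀(L)`. -/
theorem exists_newform_top {S : Finset ℕ} (hS : ∀ v : ℕ, v.Prime → v ∣ L → v ∈ S)
    {φ : HomC (⊤ : Subgroup (ZMod L)ˣ)}
    (hφ : φ ∈ parabolicHoms ℂ (gammaH L (⊤ : Subgroup (ZMod L)ˣ)) ℂ) (hne : φ ≠ 0) (a : ℕ → ℂ)
    (hT : ∀ (ℓ : ℕ) [Fact ℓ.Prime], ℓ ∉ S → hecke L ⊤ ℓ ℂ φ = a ℓ • φ) :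
    ∃ (M : ℕ) (_ : NeZero M) (g : CuspForm (Gamma0 M) 2), g.IsNewform ∧ M ∣ L ∧
      ∀ ℓ : ℕ, ℓ.Prime → ℓ ∉ S → qCoeff g ℓ = a ℓ := by
  classical
  obtain ⟨v, rfl⟩ := (Lift.toTop ℂ L).surjective φ
  have hv : v ∈ parabolicHoms ℂ (Gamma0 L) ℂ := by
    simpa using toTop_symm_mem_parabolicHoms hφ
  obtain ⟨g1, g2, rfl⟩ := LevelRaising.exists_periodHomPair hv
  have hT' : ∀ (r : ℕ) (hr : r.Prime) (hrM : ¬ r ∣ L), r ∉ S →
      CuspForm.heckeTLin 2 hr hrM g1 = a r • g1 ∧ CuspForm.heckeTLin 2 hr hrM g2 = a r • g2 := by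
    intro r hr hrM hrS
    have : Fact r.Prime := ⟨hr⟩
    have e := hT r hrS
    rw [Lift.hecke_toTop ℂ hr hrM, ← map_smul] at e
    have e' := (Lift.toTop ℂ L).injective e
    rw [LevelRaising.homT_periodHomPair, ← map_smul, Prod.smul_mk] at e'
    exact Prod.mk.injEq .. ▸ periodHomPair_injective L e'
  obtain ⟨f, hf0, hfT⟩ : ∃ f : CuspForm (Gamma0 L) 2, f ≠ 0 ∧
      ∀ (r : ℕ) (hr : r.Prime) (hrM : ¬ r ∣ L), r ∉ S →
        CuspForm.heckeTLin 2 hr hrM f = a r • f := by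
    by_cases h1 : g1 = 0
    · refine ⟨g2, fun h2 => hne ?_, fun r hr hrM hrS => (hT' r hr hrM hrS).2⟩
      rw [h1, h2, ← Prod.zero_eq_mk, map_zero, map_zero]
    · exact ⟨g1, h1, fun r hr hrM hrS => (hT' r hr hrM hrS).1⟩
  haveI : FiniteDimensional ℂ (CuspForm (Gamma0 L) 2) :=
    IntegralStructure.finiteDimensional_cuspForm L
  let A := ↥(CuspForm.heckeAlgebra L 2 (∅ : Set ℕ))
  let ρ : A →+* Module.End ℂ (CuspForm (Gamma0 L) 2) :=
    (CuspForm.heckeAlgebra L 2 (∅ : Set ℕ)).val.toRingHom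
  have hρT : ∀ (r : ℕ) (hr : r.Prime) (hrM : ¬ r ∣ L),
      ρ (HeckeDuality.heckeOp L 2 r hr) = CuspForm.heckeTLin 2 hr hrM := fun r hr hrM => by
    show (HeckeDuality.heckeOp L 2 r hr).1 = _
    rw [HeckeDuality.heckeOp, dif_neg hrM, CuspForm.heckeAlgebra.coe_T]
  let W : Submodule ℂ (CuspForm (Gamma0 L) 2) :=
    { carrier := {x | ∀ (r : ℕ) (hr : r.Prime), r ∉ S →
          ρ (HeckeDuality.heckeOp L 2 r hr) x = a r • x}
      zero_mem' := fun r hr _ => by simp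
      add_mem' := fun {x y} hx hy r hr hrS => by
        rw [map_add, hx r hr hrS, hy r hr hrS, smul_add]
      smul_mem' := fun c x hx r hr hrS => by rw [map_smul, hx r hr hrS, smul_comm] }
  have hfW : f ∈ W := fun r hr hrS => by
    have hrM : ¬ r ∣ L := fun hd => hrS (hS r hr hd)
    rw [hρT r hr hrM]; exact hfT r hr hrM hrS
  have hWne : W ≠ ⊥ := fun h0 => hf0 <| by
    rw [h0, Submodule.mem_bot] at hfW
    exact hfW
  have hWinv : ∀ t, ∀ x ∈ W, ρ t x ∈ W := fun t x hx r hr hrS => by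
    rw [← Module.End.mul_apply, ← map_mul, mul_comm, map_mul, Module.End.mul_apply, hx r hr hrS,
      map_smul]
  obtain ⟨χ, w, hwW, hw0, hχ⟩ := HeckeDuality.exists_eigenCharacter ρ W hWne hWinv
  obtain ⟨-, hnorm, hcoeff⟩ := HeckeDuality.isNormalizedEigenform_of_eigen hw0
    (fun r => if hr : r.Prime then χ (HeckeDuality.heckeOp L 2 r hr) else 0)
    (fun r hr => by simp only [dif_pos hr]; exact hχ _)
  obtain ⟨M, g, hM, hg, heq⟩ := Newforms.exists_newform hnorm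
  have : NeZero M := ⟨fun h => NeZero.ne L (Nat.eq_zero_of_zero_dvd (h ▸ hM))⟩
  refine ⟨M, this, g, hg, hM, fun r hr hrS => ?_⟩
  rw [heq r hr fun hd => hrS (hS r hr hd), hcoeff r hr, dif_pos hr]
  exact smul_left_injective ℂ hw0 ((hχ _).symm.trans (hwW r hr hrS))

end Fermat.Agent.RT.Lifting.GalAlg
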