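import Fermat.Agent.RT.Lifting.Interface
import Fermat.Agent.RT.Lifting.GalAlg.TopEigen
import Mathlib.RingTheory.Ideal.MinimalPrime.Localization

/-!
# The localised classes of `Γ₀(L)` see only congruent classical systems
-/

set_option autoImplicit false
set_option linter.style.haveILetI false
set_option linter.unusedSectionVars false

noncomputable section

namespace Fermat.Agent.RT.Lifting.GalAlg

open IsLocalRing MvPolynomial Module CongruenceSubgroup ModularFormClass
open Fermat.Agent.RT.GammaH Fermat.Agent.RT.Assembly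

variable {O : Type} [CommRing O] [IsDomain O] [IsDiscreteValuationRing O]

section Points

variable {A : Type} [CommRing A] [Algebra O A] [Module.Finite O A] [Algebra O ℂ]

/-- A finite algebra has finitely many points in `ℂ`. -/
theorem finite_algHom : Finite (A →ₐ[O] ℂ) := by
  classical
  obtain ⟨n, gen, hgen⟩ := Module.Finite.exists_fin (R := O) (M := A)
  choose q hq hqe using fun i => Algebra.IsIntegral.isIntegral (R := O) (gen i)
  have hroot : ∀ (θ : A →ₐ[O] ℂ) i, θ (gen i) ∈ {z | ((q i).map (algebraMap O ℂ)).IsRoot z} := by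
    intro θ i
    show Polynomial.eval _ _ = 0
    rw [Polynomial.eval_map, ← Polynomial.aeval_def, Polynomial.aeval_algHom_apply,
      Polynomial.aeval_def, hqe, map_zero]
  have : ∀ i, Finite {z | ((q i).map (algebraMap O ℂ)).IsRoot z} := fun i =>
    (Polynomial.finite_setOfPred_isRoot ((hq i).map _).ne_zero).to_subtype
  refine Finite.of_injective (fun (θ : A →ₐ[O] ℂ) (i : Fin n) =>
    (⟨θ (gen i), hroot θ i⟩ : {z | ((q i).map (algebraMap O ℂ)).IsRoot z})) fun θ θ' h => ?_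
  refine AlgHom.toLinearMap_injective (LinearMap.ext_on_range hgen fun i => ?_)
  exact congrArg Subtype.val (congrFun h i)

/-- The points in `ℂ` of a finite torsion-free algebra detect the elements which are not
nilpotent. -/
theorem exists_algHom_ne_zero (htf : ∀ (o : O) (a : A), o ≠ 0 → o • a = 0 → a = 0)
    (hinj : Function.Injective (algebraMap O ℂ)) {f : A} (hf : ¬ IsNilpotent f) :
    ∃ θ : A →ₐ[O] ℂ, θ f ≠ 0 := by
  obtain ⟨P, hP, hfP⟩ : ∃ P ∈ minimalPrimes A, f ∉ P := by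
    by_contra hcon
    push Not at hcon
    refine hf (mem_nilradical.1 ?_)
    show f ∈ (⊥ : Ideal A).radical
    rw [← Ideal.sInf_minimalPrimes, Submodule.mem_sInf]
    exact hcon
  haveI hPp : P.IsPrime := hP.1.1
  have hO : ∀ o : O, algebraMap O A o ∈ P → o = 0 := fun o ho => by
    by_contra ho0
    refine Set.disjoint_left.1 (Ideal.disjoint_nonZeroDivisors_of_mem_minimalPrimes hP)
      ho (mem_nonZeroDivisors_iff_right.2 fun a ha => ?_)
    exact htf o a ho0 (by rwa [Algebra.smul_def, mul_comm])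
  haveI : FaithfulSMul O (A ⧸ P) := (faithfulSMul_iff_algebraMap_injective O (A ⧸ P)).2
    ((injective_iff_map_eq_zero _).2 fun o ho => hO o (Ideal.Quotient.eq_zero_iff_mem.1 ho))
  haveI : FaithfulSMul O ℂ := (faithfulSMul_iff_algebraMap_injective O ℂ).2 hinj
  haveI : Module.IsTorsionFree O (A ⧸ P) := inferInstance
  haveI : Module.IsTorsionFree O ℂ := inferInstance
  let ψ : A ⧸ P →ₐ[O] ℂ := IsAlgClosed.lift
  have hψ : Function.Injective ψ := by
    rw [injective_iff_map_eq_zero]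
    intro x hx
    by_contra hx0
    obtain ⟨q, hq0, hqx⟩ : ∃ q : Polynomial O, q.coeff 0 ≠ 0 ∧ Polynomial.aeval x q = 0 :=
      (Algebra.IsAlgebraic.isAlgebraic x).exists_nonzero_coeff_and_aeval_eq_zero
        (mem_nonZeroDivisors_of_ne_zero hx0)
    have h1 := congrArg ψ hqx
    rw [← Polynomial.aeval_algHom_apply, hx, map_zero, Polynomial.aeval_def,
      Polynomial.eval₂_at_zero, ← map_zero (algebraMap O ℂ)] at h1
    exact hq0 (hinj h1)
  exact ⟨ψ.comp (Ideal.Quotient.mkₐ O P), fun h => hfP (Ideal.Quotient.eq_zero_iff_mem.1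
    (hψ (h.trans (map_zero ψ).symm)))⟩

end Points

variable [IsAdicComplete (maximalIdeal O) O] {L : ℕ} [NeZero L] {S : Finset ℕ}
  {abar : ℕ → ResidueField O}

/-- The character of a system on the polynomial algebra. -/
def sysHom (a : ℕ → O) : OpRing O L S →ₐ[O] O :=
  aeval (Sum.elim (fun _ => 1) fun ℓ => a ℓ.1)

/-- **The systems of the localised classes.** -/
theorem exists_systems (ι : O →+* ℂ) (hinj : Function.Injective ι)
    (hS : ∀ q : ℕ, q.Prime → q ∣ L → q ∈ S) (hcoef : HasCoefficients ι L) {ℓ₀ : ℕ}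
    (hℓ₀ : ℓ₀.Prime) (hℓ₀S : ℓ₀ ∉ S) (hℓ₀L : L ∣ ℓ₀ - 1)
    (hℓ₀a : abar ℓ₀ ≠ 1 + (ℓ₀ : ResidueField O)) {e : OpRing O L S}
    (he : IsLocalizer (resIdeal S abar L) (Classes O S L) e) :
    ∃ (J : Type) (_ : Finite J) (a : J → ℕ → O),
      (∀ j, IsClassicalSystem ι L (a j) ∧ IsResidualSystem S abar (a j)) ∧
      ∀ P : OpRing O L S, (∀ j, sysHom (a j) P = 0) → localAct O e (Classes O S L) P = 0 := by
  classical
  letI : Algebra O ℂ := ι.toAlgebra
  have hinj' : Function.Injective (algebraMap O ℂ) := hinj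
  obtain ⟨P₀, hP₀, hpar⟩ := exists_parabolicOp_top (O := O) abar hℓ₀ hℓ₀S hℓ₀L hℓ₀a
  set act := localAct O e (Classes O S L) with hact
  set K : Ideal (OpRing O L S) := RingHom.ker act
  let f : (OpRing O L S ⧸ K) →ₐ[O] Module.End O (localPart O e (Classes O S L)) :=
    Ideal.Quotient.liftₐ K act fun _ h => h
  have hf : Function.Injective f := RingHom.kerLift_injective act.toRingHom
  haveI : Module.Finite O (OpRing O L S ⧸ K) := Module.Finite.of_injective f.toLinearMap hf
  have htf : ∀ (o : O) (x : OpRing O L S ⧸ K), o ≠ 0 → o • x = 0 → x = 0 := fun o x ho hx => by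
    refine hf (((map_zero f).symm ▸ LinearMap.ext fun y => ?_) : f x = f 0)
    have h1 := LinearMap.congr_fun (congrArg f hx) y
    rw [map_smul, map_zero, LinearMap.smul_apply, LinearMap.zero_apply] at h1
    exact (smul_eq_zero.1 h1).resolve_left ho
  haveI := finite_algHom (O := O) (A := OpRing O L S ⧸ K)
  have hdia : ∀ u, act (X (Sum.inl u)) = 1 := fun u => LinearMap.ext fun x => Subtype.ext (by
    rw [coe_localAct_apply, X_inl_smul]
    exact diamond_top O u _)
  have hred : ∀ (Q : OpRing O L S) (n : ℕ), act (Q ^ n) = 0 → act Q = 0 := fun Q n hn =>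
    LinearMap.ext fun x => Subtype.ext
      (smul_eq_zero_of_pow_smul_top hS hinj' he hP₀ hpar x.2 (n := n)
        (congrArg Subtype.val (LinearMap.congr_fun hn x)))
  have hdata : ∀ θ : (OpRing O L S ⧸ K) →ₐ[O] ℂ, ∃ a : ℕ → O,
      IsClassicalSystem ι L a ∧ IsResidualSystem S abar a ∧
        ∀ Q, θ (Ideal.Quotient.mk K Q) = ι (sysHom a Q) := by
    intro θ
    let θ' : OpRing O L S →ₐ[O] ℂ := θ.comp (Ideal.Quotient.mkₐ O K)
    have hθ' : ∀ Q, act Q = 0 → θ' Q = 0 := fun Q hQ => by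
      show θ (Ideal.Quotient.mk K Q) = 0
      rw [Ideal.Quotient.eq_zero_iff_mem.2 hQ, map_zero]
    obtain ⟨φ, hφ0, hφ, heig⟩ := exists_eigvec hinj' he hP₀ hpar θ' hθ'
    let c : ℕ → ℂ := fun ℓ => if h : ℓ.Prime ∧ ℓ ∉ S then θ' (X (Sum.inr ⟨ℓ, h⟩)) else 0
    have hc : ∀ i : {ℓ : ℕ // ℓ.Prime ∧ ℓ ∉ S}, c i.1 = θ' (X (Sum.inr i)) := fun i => dif_pos i.2
    obtain ⟨M, hM0, g, hg, hML, hgc⟩ := exists_newform_top hS hφ hφ0 c fun ℓ hℓ hℓS => by
      rw [← opC_inr (O := O) (⟨ℓ, hℓ.out, hℓS⟩ : {ℓ : ℕ // ℓ.Prime ∧ ℓ ∉ S}), heig,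
        ← hc ⟨ℓ, hℓ.out, hℓS⟩]
    let a : ℕ → O := fun ℓ =>
      if h : ℓ.Prime ∧ ¬ ℓ ∣ M then (hcoef M g hg hML ℓ h.1 h.2).choose else 0
    have ha : ∀ ℓ : ℕ, ℓ.Prime → ¬ ℓ ∣ M → ι (a ℓ) = qCoeff g ℓ := fun ℓ h h' => by
      simp only [a, dif_pos (And.intro h h')]
      exact (hcoef M g hg hML ℓ h h').choose_spec
    have hgen : θ' = (Algebra.ofId O ℂ).comp (sysHom a) := by
      refine MvPolynomial.algHom_ext fun i => ?_
      show θ (Ideal.Quotient.mk K (X i)) = algebraMap O ℂ (sysHom a (X i))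
      rw [sysHom, aeval_X]
      rcases i with u | ℓ
      · rw [Sum.elim_inl, map_one]
        show θ (Ideal.Quotient.mk K _) = 1
        rw [← map_one θ, ← map_one (Ideal.Quotient.mk K)]
        refine congrArg θ (Ideal.Quotient.eq.2 ?_)
        show act _ = 0
        rw [map_sub, hdia, map_one, sub_self]
      · show θ' (X (Sum.inr ℓ)) = algebraMap O ℂ (a ℓ.1)
        rw [← hc ℓ, ← hgc ℓ.1 ℓ.2.1 ℓ.2.2,
          ← ha ℓ.1 ℓ.2.1 fun hd => ℓ.2.2 (hS _ ℓ.2.1 (hd.trans hML))]
        rfl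
    refine ⟨a, ⟨M, hM0, g, hg, hML, fun ℓ h h' => (ha ℓ h h').symm⟩, fun ℓ hℓ hℓS => ?_,
      fun Q => DFunLike.congr_fun hgen Q⟩
    obtain ⟨o, ho⟩ := residue_surjective (R := O) (abar ℓ)
    set i : {ℓ : ℕ // ℓ.Prime ∧ ℓ ∉ S} := ⟨ℓ, hℓ, hℓS⟩
    by_contra hne
    have hsm : (X (Sum.inr i) - C (a ℓ) : OpRing O L S) ∉ resIdeal S abar L := by
      rw [mem_resIdeal, map_sub, opRes_inr, ← algebraMap_eq, AlgHom.commutes,
        ResidueField.algebraMap_eq, sub_eq_zero]
      exact Ne.symm hne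
    obtain ⟨t, ht⟩ := he.invert _ hsm
    have h1 : act ((X (Sum.inr i) - C (a ℓ)) * t) = 1 := LinearMap.ext fun x => Subtype.ext (by
      rw [coe_localAct_apply]
      calc ((X (Sum.inr i) - C (a ℓ)) * t) • (x : Classes O S L)
          = ((X (Sum.inr i) - C (a ℓ)) * t) • e • (x : Classes O S L) := by
            rw [show e • (x : Classes O S L) = x from x.2]
        _ = e • (x : Classes O S L) := by rw [smul_smul, ht]
        _ = _ := x.2)
    have h2 := hθ' (((X (Sum.inr i) - C (a ℓ)) * t) - 1) (by rw [map_sub, h1, map_one, sub_self])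
    rw [hgen] at h2
    simp [sysHom, i] at h2
  choose a hacl hares haθ using hdata
  refine ⟨_, inferInstance, a, fun j => ⟨hacl j, hares j⟩, fun P hP => ?_⟩
  by_contra hne
  obtain ⟨θ, hθ⟩ := exists_algHom_ne_zero htf hinj' (f := Ideal.Quotient.mk K P) (by
    rintro ⟨n, hn⟩
    rw [← map_pow, Ideal.Quotient.eq_zero_iff_mem] at hn
    exact hne (hred P n hn))
  exact hθ (by rw [haθ, hP, map_zero])

end Fermat.Agent.RT.Lifting.GalAlg
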